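import Fermat.Agent.RT.Glue.Core

/-!
# A representation over a ring from pointwise traces and determinants

Let a complete local ring embed in a product of fields, and let a group have two dimensional
representations over the fields whose traces and determinants come from the ring and whose residual
representation spans the matrices and has a diagonal element with distinct eigenvalues. They come
from a representation over the ring; no unit condition on `2` is needed.
-/

set_option autoImplicit false
set_option linter.style.haveILetI false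
set_option linter.unusedSectionVars false
set_option linter.unusedSimpArgs false

noncomputable section

open IsLocalRing Matrix Fermat.Agent.RT.Glue

namespace Fermat.Agent.RT.Two.Glue

variable {A : Type} [CommRing A] [IsLocalRing A] [IsAdicComplete (maximalIdeal A) A]
  {k : Type} [Field k] (aug : A →+* k)
  {G : Type} [Group G] {ι : Type} (K : ι → Type) [∀ i, Field (K i)] (π : ∀ i, A →+* K i)
  (ρ : ∀ i, G →* Matrix (Fin 2) (Fin 2) (K i)) (tA dA : G → A)
  (rbar : G →* Matrix (Fin 2) (Fin 2) k)

set_option maxHeartbeats 1000000 in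
/-- The representation over `A` in the frame of a diagonal element. -/
theorem exists_glue_diag (haug : Function.Surjective aug)
    (hπ : ∀ x : A, (∀ i, π i x = 0) → x = 0)
    (htr : ∀ i σ, (ρ i σ).trace = π i (tA σ)) (hdet : ∀ i σ, (ρ i σ).det = π i (dA σ))
    (hres : ∀ σ, (rbar σ).trace = aug (tA σ)) (hresd : ∀ σ, (rbar σ).det = aug (dA σ))
    (hspan : Submodule.span k (Set.range rbar) = ⊤)
    {σ₀ : G} {u w : k} (huw : u ≠ w) (hσ₀ : rbar σ₀ = !![u, 0; 0, w]) :
    ∃ R : G →* Matrix (Fin 2) (Fin 2) A,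
      (∀ σ, (R σ).map aug = rbar σ) ∧ (∀ σ, (R σ).trace = tA σ) ∧ (∀ σ, (R σ).det = dA σ) ∧
      (∀ σ, (∀ i, ρ i σ = 1) → R σ = 1) ∧
      ∀ (I : Ideal A) σ, (∀ g, tA (σ * g) - tA g ∈ I) →
        ∀ a b, R σ a b - (1 : Matrix (Fin 2) (Fin 2) A) a b ∈ I := by
  obtain ⟨R, hR, hRt, hRd, hR1, hRI⟩ := exists_glue_of_element aug K π ρ tA rbar haug hπ htr hres
    hspan (MonoidAlgebra.single σ₀ 1) (dA σ₀) huw (by rw [algHom_single, map_one, one_smul, hσ₀])
    (fun i => by rw [algHom_single, map_one, one_smul, hdet])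
    (by rw [← hresd, hσ₀]; simp [Matrix.det_fin_two])
  refine ⟨R, hR, hRt, fun σ => sub_eq_zero.1 (hπ _ fun i => ?_), fun σ h => ?_, hRI⟩
  · rw [map_sub, hRd, hdet, sub_self]
  · ext a b
    refine sub_eq_zero.1 (hπ _ fun i => ?_)
    rw [map_sub, sub_eq_zero]
    exact congrFun (congrFun (((hR1 i σ).2 (h i)).trans
      (Matrix.map_one (π i) (map_zero _) (map_one _)).symm) a) b

/-- The representation over `A`. -/
theorem exists_glue (haug : Function.Surjective aug)
    (hπ : ∀ x : A, (∀ i, π i x = 0) → x = 0)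
    (htr : ∀ i σ, (ρ i σ).trace = π i (tA σ)) (hdet : ∀ i σ, (ρ i σ).det = π i (dA σ))
    (hres : ∀ σ, (rbar σ).trace = aug (tA σ)) (hresd : ∀ σ, (rbar σ).det = aug (dA σ))
    (hspan : Submodule.span k (Set.range rbar) = ⊤)
    (hdist : ∃ σ u w, u ≠ w ∧ (rbar σ).trace = u + w ∧ (rbar σ).det = u * w) :
    ∃ R : G →* Matrix (Fin 2) (Fin 2) A,
      (∀ σ, (R σ).map aug = rbar σ) ∧ (∀ σ, (R σ).trace = tA σ) ∧ (∀ σ, (R σ).det = dA σ) ∧
      (∀ σ, (∀ i, ρ i σ = 1) → R σ = 1) ∧
      ∀ (I : Ideal A) σ, (∀ g, tA (σ * g) - tA g ∈ I) →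
        ∀ a b, R σ a b - (1 : Matrix (Fin 2) (Fin 2) A) a b ∈ I := by
  classical
  obtain ⟨σ₀, u, w, huw, hut, hud⟩ := hdist
  obtain ⟨p, hp⟩ : ∃ p : Matrix (Fin 2) (Fin 2) k, p.det ≠ 0 ∧
      rbar σ₀ * p = p * !![u, 0; 0, w] := by
    set M := rbar σ₀
    rw [Matrix.trace_fin_two] at hut
    rw [Matrix.det_fin_two] at hud
    have hne : u - w ≠ 0 := sub_ne_zero.2 huw
    rcases eq_or_ne (M 0 1) 0 with h01 | h01
    · have hroot : (u - M 0 0) * (u - M 1 1) = 0 := by
        linear_combination -u * hut + hud + M 1 0 * h01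
      rcases mul_eq_zero.1 hroot with h | h
      · refine ⟨!![u - w, 0; M 1 0, 1], by simp [Matrix.det_fin_two, hne], ?_⟩
        ext a b
        fin_cases a <;> fin_cases b <;>
          simp [Matrix.mul_apply, Fin.sum_univ_two, h01] <;> grind
      · refine ⟨!![0, u - w; 1, -M 1 0],
          by simp [Matrix.det_fin_two, sub_ne_zero.2 huw.symm], ?_⟩
        ext a b
        fin_cases a <;> fin_cases b <;>
          simp [Matrix.mul_apply, Fin.sum_univ_two, h01] <;> grind
    · refine ⟨!![M 0 1, M 0 1; u - M 0 0, w - M 0 0], ?_, ?_⟩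
      · rw [Matrix.det_fin_two_of, ← mul_sub, sub_sub_sub_cancel_right]
        exact mul_ne_zero h01 (sub_ne_zero.2 huw.symm)
      · ext a b
        fin_cases a <;> fin_cases b <;> simp [Matrix.mul_apply, Fin.sum_univ_two] <;> grind
  obtain ⟨p', hp'⟩ : ∃ P : Matrix (Fin 2) (Fin 2) A, P.map aug = p := by
    choose f hf using haug
    exact ⟨p.map f, by ext a b; exact hf _⟩
  have hP : IsUnit p'.det := by
    by_contra h
    refine hp.1 ?_
    have h0 := (aug_eq_zero_iff aug haug).2 h
    rwa [RingHom.map_det, RingHom.mapMatrix_apply, hp'] at h0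
  set Q := p'⁻¹
  have hPQ : p' * Q = 1 := Matrix.mul_nonsing_inv _ hP
  have hQP : Q * p' = 1 := Matrix.nonsing_inv_mul _ hP
  set q := Q.map aug
  have hpq : p * q = 1 := by
    rw [← hp', ← Matrix.map_mul, hPQ, Matrix.map_one _ (map_zero _) (map_one _)]
  have hqp : q * p = 1 := mul_eq_one_comm.1 hpq
  let rbar' : G →* Matrix (Fin 2) (Fin 2) k :=
    { toFun := fun σ => q * rbar σ * p
      map_one' := by rw [map_one, mul_one, hqp]
      map_mul' := fun a b => by
        rw [map_mul, show q * rbar a * p * (q * rbar b * p) = q * rbar a * (p * q) * rbar b * p by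
          simp only [mul_assoc], hpq, mul_one]; simp only [mul_assoc] }
  obtain ⟨R, hR, hRt, hRd, hR1, hRI⟩ := exists_glue_diag aug K π ρ tA dA rbar' haug hπ htr hdet
    (fun σ => by
      show (q * rbar σ * p).trace = _
      rw [Matrix.trace_mul_comm, ← mul_assoc, hpq, one_mul, hres])
    (fun σ => by
      show (q * rbar σ * p).det = _
      rw [Matrix.det_mul, Matrix.det_mul, mul_right_comm, ← Matrix.det_mul, hqp, Matrix.det_one,
        one_mul, hresd])
    (eq_top_iff.2 fun X _ => by
      have h : ∀ Y ∈ Submodule.span k (Set.range rbar),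
          q * Y * p ∈ Submodule.span k (Set.range rbar') := fun Y hY => by
        induction hY using Submodule.span_induction with
        | mem x hx => obtain ⟨g, rfl⟩ := hx; exact Submodule.subset_span ⟨g, rfl⟩
        | zero => simp
        | add x y _ _ hx hy => rw [mul_add, add_mul]; exact add_mem hx hy
        | smul c x _ hx => rw [mul_smul_comm, smul_mul_assoc]; exact Submodule.smul_mem _ _ hx
      have h' := h (p * X * q) (by rw [hspan]; trivial)
      rwa [show q * (p * X * q) * p = (q * p) * X * (q * p) by simp only [mul_assoc], hqp, one_mul,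
        mul_one] at h')
    huw (show q * rbar σ₀ * p = _ by rw [mul_assoc, hp.2, ← mul_assoc, hqp, one_mul])
  let R' : G →* Matrix (Fin 2) (Fin 2) A :=
    { toFun := fun σ => p' * R σ * Q
      map_one' := by rw [map_one, mul_one, hPQ]
      map_mul' := fun a b => by
        rw [map_mul, show p' * R a * Q * (p' * R b * Q) = p' * R a * (Q * p') * R b * Q by
          simp only [mul_assoc], hQP, mul_one]; simp only [mul_assoc] }
  refine ⟨R', fun σ => ?_, fun σ => ?_, fun σ => ?_, fun σ h => ?_, fun I σ hI a b => ?_⟩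
  · show (p' * R σ * Q).map aug = _
    rw [Matrix.map_mul, Matrix.map_mul, hp', hR]
    show p * (q * rbar σ * p) * q = _
    rw [show p * (q * rbar σ * p) * q = p * q * rbar σ * (p * q) by simp only [mul_assoc], hpq,
      one_mul, mul_one]
  · show (p' * R σ * Q).trace = _
    rw [Matrix.trace_mul_comm, ← mul_assoc, hQP, one_mul, hRt]
  · show (p' * R σ * Q).det = _
    rw [Matrix.det_mul, Matrix.det_mul, mul_right_comm, ← Matrix.det_mul, hPQ, Matrix.det_one,
      one_mul, hRd]
  · show p' * R σ * Q = 1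
    rw [hR1 σ h, mul_one, hPQ]
  · show (p' * R σ * Q) a b - _ ∈ I
    rw [← hPQ, ← Matrix.sub_apply,
      show p' * R σ * Q - p' * Q = p' * (R σ - 1) * Q by rw [mul_sub, sub_mul, mul_one]]
    simp only [Matrix.mul_apply]
    exact I.sum_mem fun i _ => I.mul_mem_right _ (I.sum_mem fun j _ =>
      I.mul_mem_left _ (by rw [Matrix.sub_apply]; exact hRI I σ hI j i))

end Fermat.Agent.RT.Two.Glue
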