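import Fermat.Agent.RT.Two.Glue.Core
import Fermat.Agent.RT.Two.Hecke.Family
import Fermat.Agent.RT.Glue.Values
import Fermat.Agent.GaloisReps.Flat
import Fermat.Agent.EC.Rep.Local.Flat
import Fermat.Agent.Arith.Chebotarev.Main

/-!
# Gluing at two

Traces and determinants of a family of pointwise representations are limits of their values at
Frobenius elements, hence lie in the ring; the representation over the ring is flat at two when
the relations of finite Galois orders detect the small traces.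
-/

set_option autoImplicit false
set_option linter.style.haveILetI false
set_option linter.unusedSectionVars false

noncomputable section

namespace Fermat.Agent.RT.Two

open IsLocalRing Fermat.Agent.Deform Fermat.Agent.Arith
open scoped MonoidAlgebra

variable {O : Type} [CommRing O] [IsDomain O]

theorem smallAt_iff {N : ℕ} {c : CBar O} : SmallAt O N c ↔ RT.Glue.IsIntMul 2 N c := by
  simp only [SmallAt, RT.Glue.IsIntMul, Nat.cast_ofNat]

variable {A : Type} [CommRing A] [Algebra O A] [Module.Finite O A]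

variable [IsDiscreteValuationRing O] [IsAdicComplete (maximalIdeal O) O]
  [Finite (ResidueField O)] [CharZero O] [IsLocalRing A]

section Ring

variable (h2 : (2 : O) ∈ maximalIdeal O) (aug : A →ₐ[O] ResidueField O)

theorem aug_surjective : Function.Surjective aug := fun y => by
  obtain ⟨o, rfl⟩ := residue_surjective y
  exact ⟨algebraMap O A o, aug.commutes o⟩

include aug in
theorem finite_residue : Finite (ResidueField A) := by
  choose f hf using residue_surjective (R := O)
  refine Finite.of_surjective (fun y => residue A (algebraMap O A (f y))) fun z => ?_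
  obtain ⟨a, rfl⟩ := residue_surjective z
  refine ⟨aug a, sub_eq_zero.1 ?_⟩
  rw [← map_sub, residue_eq_zero_iff,
    ← RT.Glue.aug_eq_zero_iff aug.toRingHom (aug_surjective aug)]
  show aug _ = 0
  rw [map_sub, aug.commutes, ResidueField.algebraMap_eq, hf, sub_self]

include h2 aug in
theorem two_mem : (2 : A) ∈ maximalIdeal A := by
  rw [← RT.Glue.aug_eq_zero_iff aug.toRingHom (aug_surjective aug), map_ofNat,
    ← map_ofNat (residue O) 2, residue_eq_zero_iff]
  exact h2

include h2 aug in
theorem natCast_two_mem_maximal : ((2 : ℕ) : A) ∈ maximalIdeal A := by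
  rw [Nat.cast_ofNat]
  exact two_mem h2 aug

end Ring

variable [IsAdicComplete (maximalIdeal A) A] {S : Finset ℕ} {ι : Type}
  (h2 : (2 : O) ∈ maximalIdeal O) (aug : A →ₐ[O] ResidueField O) (P : PointFamily O A S ι)

include h2 aug in
theorem exists_saturation_two (n : ℕ) :
    ∃ N, ∀ x : A, (∀ i, SmallAt O N (P.π i x)) → x ∈ Ideal.span {(2 : A) ^ n} := by
  have := finite_residue aug
  obtain ⟨N, hN⟩ := RT.Glue.exists_saturation_values two_ne_zero (p := 2) (by exact_mod_cast h2)
    (natCast_two_mem_maximal h2 aug) P.π P.separates n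
  exact ⟨N, fun x hx => by simpa using hN x fun i => smallAt_iff.1 (hx i)⟩

include h2 aug in
/-- A function of the points which is approximated by elements of the ring comes from it. -/
theorem exists_value (val : ι → CBar O) (r : ResidueField O)
    (h : ∀ N, ∃ a : A, (∀ i, SmallAt O N (val i - P.π i a)) ∧ aug a = r) :
    ∃ x : A, (∀ i, P.π i x = val i) ∧ aug x = r := by
  have := finite_residue aug
  choose t ht htr using h
  obtain ⟨x, hx, m, hm⟩ := RT.Glue.exists_value_of_approx two_ne_zero (p := 2)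
    (by exact_mod_cast h2) (natCast_two_mem_maximal h2 aug) P.π P.separates val t
    fun N i => smallAt_iff.1 (ht N i)
  refine ⟨x, hx, ?_⟩
  rw [← htr m, ← sub_eq_zero, ← map_sub]
  exact (RT.Glue.aug_eq_zero_iff aug.toRingHom (aug_surjective aug)).2 hm

variable {rbar : GQ →* M2 (ResidueField O)}
  (hfin : ∃ F : IntermediateField ℚ QBar, FiniteDimensional ℚ F ∧
      ∀ σ : GQ, (∀ z ∈ F, σ z = z) → rbar σ = 1)
  (hfrob : ∀ ℓ : ℕ, ℓ.Prime → ℓ ∉ S → ∀ V : ValuationSubring QBar, V.LiesOverPrime ℓ →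
      ∀ σ : GQ, V.IsFrobeniusAt σ ℓ →
        (rbar σ).trace = aug (P.t ℓ) ∧ (rbar σ).det = aug (P.d ℓ))

include hfin hfrob in
theorem exists_frobenius_approx (σ : GQ) (N : ℕ) :
    ∃ ℓ : ℕ, ((∀ i, SmallAt O N ((P.ρ i σ).trace - P.π i (P.t ℓ))) ∧
        aug (P.t ℓ) = (rbar σ).trace) ∧
      (∀ i, SmallAt O N ((P.ρ i σ).det - P.π i (P.d ℓ))) ∧ aug (P.d ℓ) = (rbar σ).det := by
  obtain ⟨F, hF, hF'⟩ := P.cont N
  obtain ⟨F₁, hF₁, hF₁'⟩ := hfin
  haveI : Normal ℚ QBar := IsAlgClosure.normal ℚ QBar
  let L := IntermediateField.normalClosure ℚ (F ⊔ F₁ : IntermediateField ℚ QBar) QBar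
  haveI : FiniteDimensional ℚ (F ⊔ F₁ : IntermediateField ℚ QBar) :=
    IntermediateField.finiteDimensional_sup F F₁
  haveI : Normal ℚ L := normalClosure.normal ℚ _ QBar
  haveI : IsGalois ℚ L := ⟨⟩
  obtain ⟨ℓ, hℓ, hℓS, V, hV, s, hs, heq⟩ := Chebotarev.exists_frobenius_restrict_eq L σ S
  have hfix : ∀ x ∈ (F ⊔ F₁ : IntermediateField ℚ QBar), (s⁻¹ * σ) x = x := fun x hx =>
    (Chebotarev.restrictNormalHom_eq_one_iff L).mp (by rw [map_mul, map_inv, heq, inv_mul_cancel])
      x ((F ⊔ F₁ : IntermediateField ℚ QBar).le_normalClosure hx)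
  have h1 := fun i => hF' (s⁻¹ * σ) (fun x hx => hfix x ((le_sup_left : F ≤ F ⊔ F₁) hx)) s i
  have h3 : rbar σ = rbar s := by
    rw [← mul_inv_cancel_left s σ, map_mul,
      hF₁' _ fun x hx => hfix x ((le_sup_right : F₁ ≤ F ⊔ F₁) hx), mul_one]
  obtain ⟨e1, e2⟩ := hfrob ℓ hℓ hℓS V hV s hs
  refine ⟨ℓ, ⟨fun i => ?_, by rw [h3, e1]⟩, fun i => ?_, by rw [h3, e2]⟩ <;>
    obtain ⟨et, ed⟩ := P.frobenius i ℓ hℓ hℓS V hV s hs
  · have := (h1 i).1
    rwa [mul_inv_cancel_left, et] at this
  · have := (h1 i).2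
    rwa [mul_inv_cancel_left, ed] at this

/-- The pointwise trace on the group ring. -/
theorem map_trace_lift {R : GQ →* M2 A} (θ : A →ₐ[O] CBar O) {ρ : GQ →* M2 (CBar O)}
    (h : ∀ σ, θ (R σ).trace = (ρ σ).trace) (y : ℤ[GQ]) :
    θ (MonoidAlgebra.lift ℤ _ GQ R y).trace = (MonoidAlgebra.lift ℤ _ GQ ρ y).trace := by
  induction y using MonoidAlgebra.induction_linear with
  | zero => simp
  | add a b ha hb => rw [map_add, map_add, Matrix.trace_add, Matrix.trace_add, map_add, ha, hb]
  | single g c =>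
    have e : ∀ Φ : ℤ[GQ] →+ CBar O,
        Φ (MonoidAlgebra.single g c) = c • Φ (MonoidAlgebra.single g 1) := fun Φ => by
      rw [← map_zsmul, MonoidAlgebra.smul_single, smul_eq_mul, mul_one]
    refine (e ((θ : A →+ CBar O).comp ((Matrix.traceAddMonoidHom (Fin 2) A).comp
      (MonoidAlgebra.lift ℤ _ GQ R).toRingHom.toAddMonoidHom))).trans (Eq.trans ?_
        (e ((Matrix.traceAddMonoidHom (Fin 2) (CBar O)).comp
          (MonoidAlgebra.lift ℤ _ GQ ρ).toRingHom.toAddMonoidHom)).symm)
    show c • θ (MonoidAlgebra.lift ℤ _ GQ R (MonoidAlgebra.single g 1)).trace =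
      c • (MonoidAlgebra.lift ℤ _ GQ ρ (MonoidAlgebra.single g 1)).trace
    rw [← MonoidAlgebra.of_apply, MonoidAlgebra.lift_of, MonoidAlgebra.lift_of, h]

theorem mulVec_mem_smul_top {B : Type} [CommRing B] (I : Ideal B) {M : M2 B}
    (hM : ∀ i j, M i j ∈ I) (v : Fin 2 → B) :
    M.mulVec v ∈ I • (⊤ : Submodule B (Fin 2 → B)) := by
  rw [pi_eq_sum_univ' (M.mulVec v)]
  exact Submodule.sum_mem _ fun i _ => Submodule.smul_mem_smul
    (I.sum_mem (t := Finset.univ) (f := fun j => M i j * v j) fun j _ =>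
      I.mul_mem_right (v j) (hM i j)) Submodule.mem_top

include h2 aug in
/-- The representation is flat when finite Galois orders detect the small traces. -/
theorem isFlatAt_of_detected {R : GQ →* M2 A} (hR : IsCont R)
    (hspan : Submodule.span A (Set.range R) = ⊤)
    (htr : ∀ i σ, P.π i (R σ).trace = (P.ρ i σ).trace) (hflat : P.FlatDetected) :
    (toRep R hR).IsFlatAt 2 := by
  classical
  refine EC.Rep.isFlatAt_of_galOrder _ 2 (finite_residue aug) fun I hI => ?_
  have := hI
  obtain ⟨n, hn⟩ := IsLocalRing.exists_maximalIdeal_pow_le_of_isArtinianRing_quotient I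
  obtain ⟨N, hN⟩ := exists_saturation_two h2 aug P n
  obtain ⟨X, _, _, _, ⟨OX⟩, F, hF, hdet⟩ := hflat N
  have h2n : Ideal.span {(2 : A) ^ n} ≤ I :=
    ((Ideal.span_singleton_le_iff_mem _).2 (Ideal.pow_mem_pow (two_mem h2 aug) n)).trans hn
  -- relations kill the representation modulo `I`
  have hentry : ∀ y : ℤ[GQ], F y = 0 → ∀ i j, MonoidAlgebra.lift ℤ _ GQ R y i j ∈ I := by
    intro y hy
    refine mem_of_trace_mul hspan I _ fun g => h2n (hN _ fun i' => ?_)
    rw [Matrix.trace_mul_comm, show R g * MonoidAlgebra.lift ℤ _ GQ R y =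
      MonoidAlgebra.lift ℤ _ GQ R (MonoidAlgebra.single g 1 * y) by
        rw [map_mul, MonoidAlgebra.lift_single, one_smul], map_trace_lift _ (htr i')]
    exact hdet _ (by rw [hF, hy, smul_zero]) i'
  set W := (toRep R hR).V ⧸ (I • (⊤ : Submodule A (toRep R hR).V))
  have : Finite W := Module.finite_of_finite (A ⧸ I)
  have hact : ∀ y, GaloisReps.repAlg (toRep R hR) y =
      Matrix.toLinAlgEquiv' (MonoidAlgebra.lift ℤ _ GQ R y) := fun y => by
    induction y using MonoidAlgebra.induction_linear with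
    | zero => rw [map_zero, map_zero, map_zero]; rfl
    | add a b ha hb => rw [map_add, map_add, map_add, ha, hb]; rfl
    | single g c =>
      rw [GaloisReps.repAlg_single, MonoidAlgebra.lift_single, map_zsmul]
      rfl
  obtain ⟨O₂⟩ := GaloisReps.nonempty_galOrder_pi OX W
  let F₁ : (W → ℤ[GQ]) →+ (W → X) :=
    { toFun := fun x w => F (x w)
      map_zero' := by funext w; exact map_zero F
      map_add' := fun x y => by funext w; exact map_add F _ _ }
  exact GaloisReps.exists_galOrder_cover (toRep R hR) I O₂ F₁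
    (fun σ x => funext fun w => hF σ (x w)) fun x hx w v => by
      rw [hact]; exact mulVec_mem_smul_top I (hentry _ (congrFun hx w)) v

theorem span_of_residual (R : GQ →* M2 A) (haug : ∀ σ, (R σ).map aug = rbar σ)
    (hspan : Submodule.span (ResidueField O) (Set.range rbar) = ⊤) :
    Submodule.span A (Set.range R) = ⊤ :=
  span_range_eq_top_of_map aug.toRingHom (aug_surjective aug)
    (fun _ => (RT.Glue.aug_eq_zero_iff aug.toRingHom (aug_surjective aug)).mp) _
    ((show (fun σ => (R σ).map aug.toRingHom) = rbar from funext haug) ▸ hspan)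

/-- **The gluing theorem at two.** -/
theorem glueInput (O : Type) [CommRing O] [IsDomain O] [IsDiscreteValuationRing O]
    [IsAdicComplete (maximalIdeal O) O] [Finite (ResidueField O)] [CharZero O] : GlueInput O := by
  intro h2 A _ _ _ _ _ _ S ι P aug rbar hspan hdist hfin hfrob
  choose ℓ hℓ using fun σ => exists_frobenius_approx aug P hfin hfrob σ
  choose tA htA htA' using fun σ => exists_value h2 aug P (fun i => (P.ρ i σ).trace)
    (rbar σ).trace fun N => ⟨_, (hℓ σ N).1⟩
  choose dA hdA hdA' using fun σ => exists_value h2 aug P (fun i => (P.ρ i σ).det)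
    (rbar σ).det fun N => ⟨_, (hℓ σ N).2⟩
  obtain ⟨R, hR, hRt, hRd, hR1, hRI⟩ := Glue.exists_glue aug.toRingHom
    (fun _ : ι => CBar O) (fun i => (P.π i).toRingHom) P.ρ tA dA rbar (aug_surjective aug)
    P.separates (fun i σ => (htA σ i).symm) (fun i σ => (hdA σ i).symm) (fun σ => (htA' σ).symm)
    (fun σ => (hdA' σ).symm) hspan hdist
  have hcont : IsCont R := by
    intro n
    obtain ⟨N, hN⟩ := exists_saturation_two h2 aug P n
    obtain ⟨F, hF, hF'⟩ := P.cont N
    refine ⟨F, hF, fun σ hσ i j => ?_⟩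
    have hle : Ideal.span {(2 : A) ^ n} ≤ maximalIdeal A ^ n :=
      (Ideal.span_singleton_le_iff_mem _).2 (Ideal.pow_mem_pow (two_mem h2 aug) n)
    refine hle (hRI _ σ (fun g => hN _ fun i => ?_) i j)
    have := (hF' σ hσ g i).1
    rw [map_sub, htA, htA]
    rwa [map_mul, Matrix.trace_mul_comm, ← map_mul] at this
  have htrR : ∀ i σ, P.π i (R σ).trace = (P.ρ i σ).trace := fun i σ => by rw [hRt, htA]
  refine ⟨R, hcont, hR, fun i σ => ⟨htrR i σ, by rw [hRd, hdA]⟩, hR1, fun hflat => ?_⟩
  exact isFlatAt_of_detected h2 aug P hcont (span_of_residual aug R hR hspan) htrR hflat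

end Fermat.Agent.RT.Two
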